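import Fermat.Agent.GR.RT.Points
import Fermat.Agent.GR.ES.Point
import Fermat.Agent.RED.Full.Eichler

/-!
# The representation attached to an eigen system of level `Γ_H(K)`

`attachInput` proves `AttachInput p` (`GR/RT/Inputs`), the hypothesis under which modularity
lifting works. The path: an eigen system factors through the Hecke ring acting on the Jacobian of
`X_H(K)` (`JAC/XH/HeckeS2`), whose Eichler–Shimura data (`RED/Full/Eichler`, from `JAC/XH/Input`
and reduction at good primes) give the Galois representation at that point (`GR/ES/Point`).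
-/

set_option autoImplicit false

noncomputable section

namespace Fermat.GR.RT

open Fermat.MC.Lvl Fermat.JAC.XH

variable {K : ℕ} [NeZero K] {H : Subgroup (ZMod K)ˣ} [NegMem H] {O : Type} [CommRing O]
  {x : MvPolynomial (Nat.Primes ⊕ (ZMod K)ˣ) ℤ →+* O}

/-- **An eigen system gives a point of the Hecke ring acting on the Jacobian**, with the labels of
the Eichler–Shimura data. -/
theorem IsPoint.exists_jacPoint (hx : IsPoint K H x) :
    ∃ f : (heckeGens K H).R →+* O, x = f.comp (ringEval K H) ∧
      (∀ ℓ : ℕ, f (epsES K H ℓ) = eVal x ℓ) ∧ ∀ ℓ : ℕ, f (tES K H ℓ) = tVal x ℓ * eVal x ℓ := by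
  obtain ⟨f, hf⟩ := IsPoint.exists_factor K H hx
  have he : ∀ ℓ : ℕ, f (epsES K H ℓ) = eVal x ℓ := fun ℓ => by
    unfold epsES eVal
    split_ifs with h
    · rw [hf, RingHom.comp_apply, ringEval_inr]
    · exact map_zero f
  refine ⟨f, hf, he, fun ℓ => ?_⟩
  unfold tES tVal
  split_ifs with h
  · rw [map_mul, he]
    congr 1
    rw [hf]
    exact congrArg f (ringEval_inl K H ⟨ℓ, h⟩).symm
  · rw [map_zero, zero_mul]

/-- **`AttachInput p`** (Eichler–Shimura): the Tate module of the Jacobian at the point of the Hecke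
ring given by the eigen system. -/
theorem attachInput (p : ℕ) [Fact p.Prime] : AttachInput p := by
  intro K _ H hneg O _ _ _ _ _ _ hpO x hx
  have : NegMem H := ⟨hneg⟩
  obtain ⟨f, -, he, ht⟩ := hx.exists_jacPoint
  obtain ⟨ρ, hfr, hur⟩ := (Fermat.RED.Full.esData K H p).exists_galoisRepAdic hpO f
  refine ⟨matOf ρ (someBasis ρ), matCont_matOf ρ _, fun ℓ hℓ hd A hA σ hσ => ?_,
    fun ℓ hℓ hd A hA φ hφ => ?_⟩
  · rw [matOf_apply, hur ℓ hℓ hd A hA σ hσ]
    exact LinearMap.toMatrix_one _
  · have h := hfr ℓ hℓ hd A hA φ hφ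
    rw [← LinearMap.charpoly_toMatrix (ρ.ρ φ) (someBasis ρ), Matrix.charpoly_fin_two, he, ht] at h
    refine ⟨?_, ?_⟩
    · have h1 := congrArg (fun P => Polynomial.coeff P 1) h
      simpa [matOf_apply, Polynomial.coeff_X_pow] using h1
    · have h0 := congrArg (fun P => Polynomial.coeff P 0) h
      simpa [matOf_apply, Polynomial.coeff_X_pow] using h0

end Fermat.GR.RT

end
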